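import Fermat.Agent.GWEuler.MiddleExact.Induced

/-!
# Exactness in the middle over an adapted layer

`middleExact`: a module of the Galois group of an adapted layer is a direct summand of functions on
the cosets of a Sylow subgroup, whose global images are large enough.
-/

set_option autoImplicit false

noncomputable section

open CategoryTheory groupCohomology Module ExtCitation

namespace FLTAgent.GWEuler.Middle

open FLTAgent.GalCoh FLTAgent.GlobalDuality FLTAgent.IdeleClassCohomology FLTAgent.LocalDuality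

variable {p : ℕ} [hp : Fact p.Prime]

/-- A field below a layer whose group acts through a `p`-group, of index prime to `p`. -/
theorem exists_sylow_field (L : Layer) (hmu : ∀ g ∈ L.sub, cycloChar p g = 1)
    (M : Rep.{0} (ZMod p) Gam) (htriv : ∀ g ∈ L.sub, M.ρ g = 1) :
    ∃ K : IntermediateField ℚ QQbar, FiniteDimensional ℚ K ∧ L.sub ≤ K.fixingSubgroup ∧
      HasRoots p K ∧ (∀ u ∈ K.fixingSubgroup, ∃ k : ℕ, M.ρ (u ^ p ^ k) = 1) ∧
      ¬p ∣ Nat.card (Cosets K) := by
  classical
  have := L.finite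
  have : Algebra.IsAlgebraic ℚ QQbar := AlgebraicClosure.isAlgebraic ℚ
  have : IsGalois ℚ QQbar := IsAlgClosure.isGalois ℚ _
  have : Finite (Gam ⧸ L.sub) := inferInstance
  obtain ⟨P⟩ : Nonempty (Sylow p (Gam ⧸ L.sub)) := inferInstance
  set U : Subgroup Gam := (P : Subgroup (Gam ⧸ L.sub)).comap (QuotientGroup.mk' L.sub)
  have hLU : L.sub ≤ U := fun g hg => by
    show (QuotientGroup.mk g : Gam ⧸ L.sub) ∈ (P : Subgroup (Gam ⧸ L.sub))
    rw [(QuotientGroup.eq_one_iff g).2 hg]
    exact one_mem _
  have hopen : IsOpen (U : Set Gam) :=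
    Subgroup.isOpen_mono hLU (IntermediateField.fixingSubgroup_isOpen L.field)
  have hfix : (IntermediateField.fixedField U).fixingSubgroup = U :=
    InfiniteGalois.fixingSubgroup_fixedField ⟨U, OpenSubgroup.isClosed ⟨U, hopen⟩⟩
  have hle : IntermediateField.fixedField U ≤ L.field :=
    (IntermediateField.fixedField_antitone hLU).trans
      (InfiniteGalois.fixedField_fixingSubgroup L.field).le
  have hpow : ∀ u ∈ U, ∃ k : ℕ, u ^ p ^ k ∈ L.sub := fun u hu => by
    obtain ⟨k, hk⟩ := P.isPGroup' ⟨_, hu⟩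
    exact ⟨k, (QuotientGroup.eq_one_iff _).1 (congrArg Subtype.val hk)⟩
  refine ⟨IntermediateField.fixedField U,
    FiniteDimensional.of_injective (IntermediateField.inclusion hle).toLinearMap
      (IntermediateField.inclusion_injective hle), hfix.ge.trans' hLU,
    (hasRoots_iff_cycloChar _).2 fun u hu => ?_, fun u hu => ?_, ?_⟩
  · obtain ⟨k, hk⟩ := hpow u (hfix.le hu)
    have h1 := hmu _ hk
    rw [map_pow] at h1
    refine Units.ext ?_
    rw [← ZMod.pow_card_pow (n := k) (cycloChar p u : ZMod p), ← Units.val_pow_eq_pow_val, h1]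
  · obtain ⟨k, hk⟩ := hpow u (hfix.le hu)
    exact ⟨k, htriv _ hk⟩
  · show ¬p ∣ Nat.card (Gam ⧸ (IntermediateField.fixedField U).fixingSubgroup)
    rw [hfix, ← Subgroup.index_eq_card,
      Subgroup.index_comap_of_surjective _ (QuotientGroup.mk'_surjective L.sub)]
    exact Sylow.not_dvd_index P

/-- **Exactness in the middle** for a module trivial on an adapted layer. -/
theorem middleExact (R : Reciprocity p) (hp2 : p ≠ 2) {L : Layer} {S : Finset Nat.Primes}
    (hA : IsAdapted (p := p) L S)
    (hrank : ∀ (N : Rep.{0} (ZMod p) Gam) [FiniteDimensional (ZMod p) N],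
      (∀ g ∈ L.sub, N.ρ g = 1) → RankTwo S N)
    (M : Rep.{0} (ZMod p) Gam) [FiniteDimensional (ZMod p) M]
    (htriv : ∀ g ∈ L.sub, M.ρ g = 1) (hM : SLevel S M) : MiddleExact R S M hM := by
  classical
  obtain ⟨K, hKfin, hLK, hK, hpow, hcard⟩ := exists_sylow_field L hA.mu M htriv
  have := hKfin
  have := finite_cosets (K := K)
  let := Fintype.ofFinite (Cosets K)
  have hstable : IsStableBy K M ⊤ := fun _ _ _ _ => Submodule.mem_top
  set W := indRep K M (⊤ : Submodule (ZMod p) M)
  have hW : SLevel S W := sLevel_of_trivial hA.isS (indRep_trivial hLK htriv ⊤)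
  have := finiteDimensional_dualTwist W
  have := finiteDimensional_dualTwist (W.dualTwist (cycloChar p))
  have := finite_continuousH1S S hA.pmem _ hW
  have := finite_continuousH1S S hA.pmem _ (sLevel_dualTwist hA.pmem hW)
  have := finite_continuousH1S S hA.pmem _ (sLevel_dualTwist hA.pmem (sLevel_dualTwist hA.pmem hW))
  have hf : 0 ≤ eulerDefect S W + eulerDefect S (W.dualTwist (cycloChar p)) :=
    defectSum_indRep_nonneg hp2 hA hLK hK htriv hrank hpow _ ⊤ rfl hstable
  have heq := eulerDefect_add_eq hp2 hA.pmem W hW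
  have hmid : MiddleExact R S W hW := middleExact_of_le R hp2 hA.pmem W hW (by
    omega)
  have hN : (Fintype.card (Cosets K) : ZMod p) ≠ 0 := fun h =>
    hcard (by rw [Nat.card_eq_fintype_card]; exact (ZMod.natCast_eq_zero_iff _ p).1 h)
  let ι : M →ₗ[ZMod p] W :=
    (({ toFun := fun v _ => v
        map_add' := fun _ _ => rfl
        map_smul' := fun _ _ => rfl } : M →ₗ[ZMod p] (Cosets K → M)).codRestrict
      (indSub K M ⊤) fun _ _ => Submodule.mem_top : M →ₗ[ZMod p] indSub K M ⊤)
  let π : W →ₗ[ZMod p] M :=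
    (((Fintype.card (Cosets K) : ZMod p)⁻¹ • ∑ x : Cosets K,
      LinearMap.proj (R := ZMod p) (φ := fun _ : Cosets K => M) x).comp
        (indSub K M ⊤).subtype : indSub K M ⊤ →ₗ[ZMod p] M)
  have hπ : ∀ f : indSub K M (⊤ : Submodule (ZMod p) M),
      π f = (Fintype.card (Cosets K) : ZMod p)⁻¹ • ∑ x : Cosets K, f.1 x := fun f => by
    show ((Fintype.card (Cosets K) : ZMod p)⁻¹ • ∑ x : Cosets K,
      LinearMap.proj (R := ZMod p) (φ := fun _ : Cosets K => M) x) f.1 = _
    rw [LinearMap.smul_apply, LinearMap.sum_apply]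
    rfl
  refine middleExact_of_retract R M W ι π (fun g v => Subtype.ext (funext fun x => rfl))
    (fun g f => ?_) (fun v => ?_) hM hW hmid
  · refine (hπ _).trans (Eq.trans ?_ (congrArg (M.ρ g) (hπ f)).symm)
    rw [map_smul, map_sum]
    refine congrArg _ ?_
    exact Fintype.sum_equiv (MulAction.toPerm g⁻¹) _ _ fun x => rfl
  · refine (hπ (ι v)).trans ?_
    show (Fintype.card (Cosets K) : ZMod p)⁻¹ • ∑ _x : Cosets K, v = v
    rw [Finset.sum_const, Finset.card_univ, ← Nat.cast_smul_eq_nsmul (ZMod p),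
      inv_smul_smul₀ hN]

end FLTAgent.GWEuler.Middle
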