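import Fermat.Agent.GWEuler.MiddleExact.CosetModule

/-!
# Defects of a permutation module

The permutation module of a field containing `μ_p` is isomorphic to its dual twist, and the sum of
the two defects is nonnegative (`eulerDefect_cosetRep_nonneg`).
-/

set_option autoImplicit false

noncomputable section

open CategoryTheory groupCohomology Module ExtCitation NumberField

namespace FLTAgent.GWEuler.Middle

open FLTAgent.GalCoh FLTAgent.GlobalDuality FLTAgent.IdeleClassCohomology FLTAgent.LocalDuality

variable {p : ℕ} [hp : Fact p.Prime] {K : IntermediateField ℚ QQbar} [FiniteDimensional ℚ K]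

/-- The pairing of functions on the cosets, weighted by the cyclotomic character. -/
def cosetPair (f : Cosets K → ZMod p) : Dual (ZMod p) (Cosets K → ZMod p) :=
  haveI := finite_cosets (K := K)
  letI := Fintype.ofFinite (Cosets K)
  { toFun := fun h => ∑ x : Cosets K, (cosetChar x : (ZMod p)ˣ) * f x * h x
    map_add' := fun h h' => by
      simp only [Pi.add_apply, mul_add, Finset.sum_add_distrib]
    map_smul' := fun c h => by
      simp only [Pi.smul_apply, smul_eq_mul, RingHom.id_apply, Finset.mul_sum]
      exact Finset.sum_congr rfl fun x _ => by ring }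

theorem cosetPair_apply (f : Cosets K → ZMod p) [Fintype (Cosets K)] (h : Cosets K → ZMod p) :
    cosetPair f h = ∑ x : Cosets K, (cosetChar x : (ZMod p)ˣ) * f x * h x := by
  unfold cosetPair
  refine Finset.sum_congr ?_ fun x _ => rfl
  ext; simp

/-- The permutation module is isomorphic to its dual twist. -/
def cosetSelfDual : cosetRep p K →ₗ[ZMod p] (cosetRep p K).dualTwist (cycloChar p) :=
  ({ toFun := cosetPair
     map_add' := fun f f' => LinearMap.ext fun h => by
       have := finite_cosets (K := K)
       let := Fintype.ofFinite (Cosets K)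
       simp only [LinearMap.add_apply, cosetPair_apply, Pi.add_apply, mul_add, add_mul,
         Finset.sum_add_distrib]
     map_smul' := fun c f => LinearMap.ext fun h => by
       have := finite_cosets (K := K)
       let := Fintype.ofFinite (Cosets K)
       simp only [LinearMap.smul_apply, cosetPair_apply, Pi.smul_apply, smul_eq_mul,
         RingHom.id_apply, Finset.mul_sum]
       exact Finset.sum_congr rfl fun x _ => by ring } :
    (Cosets K → ZMod p) →ₗ[ZMod p] Dual (ZMod p) (Cosets K → ZMod p))

theorem cosetSelfDual_apply (f : cosetRep p K) [Fintype (Cosets K)] (h : Cosets K → ZMod p) :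
    (show Dual (ZMod p) (Cosets K → ZMod p) from cosetSelfDual f) h =
      ∑ x : Cosets K, (cosetChar x : (ZMod p)ˣ) * (f : Cosets K → ZMod p) x * h x :=
  cosetPair_apply _ h

theorem cosetSelfDual_equiv (hK : HasRoots p K) (g : Gam) (f : cosetRep p K) :
    cosetSelfDual ((cosetRep p K).ρ g f) =
      ((cosetRep p K).dualTwist (cycloChar p)).ρ g (cosetSelfDual f) := by
  have := finite_cosets (K := K)
  let := Fintype.ofFinite (Cosets K)
  refine LinearMap.ext fun h => ?_
  refine (cosetSelfDual_apply _ h).trans ?_
  show _ = (cycloChar p g : ZMod p) *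
    (show Dual (ZMod p) (Cosets K → ZMod p) from cosetSelfDual f) ((cosetRep p K).ρ g⁻¹ h)
  rw [cosetSelfDual_apply, Finset.mul_sum]
  refine (Fintype.sum_equiv (MulAction.toPerm g) _ _ fun x => ?_).symm
  show _ = (cosetChar (g • x) : (ZMod p)ˣ) * (f : Cosets K → ZMod p) (g⁻¹ • g • x) * h (g • x)
  rw [inv_smul_smul, cosetChar_smul hK, Units.val_mul,
    show ((cosetRep p K).ρ g⁻¹ h : Cosets K → ZMod p) x = h (g⁻¹⁻¹ • x) from rfl, inv_inv]
  ring

theorem cosetSelfDual_bijective : Function.Bijective (cosetSelfDual (p := p) (K := K)) := by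
  classical
  have := finite_cosets (K := K)
  let := Fintype.ofFinite (Cosets K)
  have : FiniteDimensional (ZMod p) ((cosetRep p K).dualTwist (cycloChar p)) :=
    finiteDimensional_dualTwist _
  have hinj : Function.Injective (cosetSelfDual (p := p) (K := K)) :=
    (injective_iff_map_eq_zero _).2 fun f hf => funext fun y => by
      have h := cosetSelfDual_apply f (Pi.single y (1 : ZMod p))
      rw [hf, Finset.sum_eq_single y (fun x _ hx => by rw [Pi.single_eq_of_ne hx, mul_zero])
        (fun hy => absurd (Finset.mem_univ y) hy), Pi.single_eq_same, mul_one] at h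
      exact (mul_eq_zero.1 h.symm).resolve_left (Units.ne_zero _)
  exact ⟨hinj, (LinearMap.injective_iff_surjective_of_finrank_eq_finrank
    (show finrank (ZMod p) (cosetRep p K) = finrank (ZMod p) (Dual (ZMod p) (cosetRep p K)) from
      Subspace.dual_finrank_eq.symm)).1 hinj⟩

/-- Local invariants of a permutation module are functions on the places. -/
theorem finrank_invariants_cosetRep_le {R : Finset (Nat.Primes × Gam)} {S : Finset Nat.Primes}
    (hcov : covered K R = {j | j.1 ∈ S}) {q : Nat.Primes} (hq : q ∈ S) :
    finrank (ZMod p) (Rep.res (primeLocalToGlobal q) (cosetRep p K)).ρ.invariants ≤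
      (R.filter fun i => i.1 = q).card := by
  classical
  have := finite_cosets (K := K)
  let Rq := R.filter fun i => i.1 = q
  let ev : (Rep.res (primeLocalToGlobal q) (cosetRep p K)).ρ.invariants →ₗ[ZMod p]
      (Rq → ZMod p) :=
    { toFun := fun f i => (f.1 : Cosets K → ZMod p) (QuotientGroup.mk i.1.2)
      map_add' := fun _ _ => rfl
      map_smul' := fun _ _ => rfl }
  refine (LinearMap.finrank_le_finrank_of_injective (f := ev)
    ((injective_iff_map_eq_zero ev).2 fun f hf => Subtype.ext (funext fun x => ?_))).trans
    (by rw [Module.finrank_fintype_fun_eq_card, Fintype.card_coe])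
  obtain ⟨γ, rfl⟩ := QuotientGroup.mk_surjective x
  obtain ⟨i, hi, hij⟩ := mem_covered.1 (show (q, γ) ∈ covered K R by rw [hcov]; exact hq)
  obtain ⟨e, τ, hτ⟩ := hij
  obtain ⟨q', σ⟩ := i
  obtain rfl : q = q' := e
  have h1 := congrFun (f.2 τ⁻¹) (QuotientGroup.mk σ)
  change (f.1 : Cosets K → ZMod p) ((loc q τ⁻¹)⁻¹ • QuotientGroup.mk σ) = _ at h1
  rw [map_inv, inv_inv] at h1
  have h2 : (loc q τ • QuotientGroup.mk σ : Cosets K) = QuotientGroup.mk γ := QuotientGroup.eq.2 hτ
  rw [h2] at h1
  exact h1.trans (congrFun hf ⟨(q, σ), Finset.mem_filter.2 ⟨hi, rfl⟩⟩)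

/-- The defects of a permutation module and of its dual twist have nonnegative sum. -/
theorem eulerDefect_cosetRep_nonneg (hp2 : p ≠ 2) {L : Layer} {S : Finset Nat.Primes}
    (hL : L.IsS S) (hLK : L.sub ≤ K.fixingSubgroup) (hK : HasRoots p K) (hpS : pPrime p ∈ S) :
    0 ≤ eulerDefect S (cosetRep p K) +
      eulerDefect S ((cosetRep p K).dualTwist (cycloChar p)) := by
  classical
  have hM : SLevel S (cosetRep p K) := ⟨L.field, hL, cosetRep_trivial hLK⟩
  have hM' := sLevel_dualTwist hpS hM
  have := finiteDimensional_dualTwist (cosetRep p K)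
  have := finiteDimensional_dualTwist ((cosetRep p K).dualTwist (cycloChar p))
  have := finite_continuousH1S S hpS _ hM
  have := finite_continuousH1S S hpS _ hM'
  have := finite_continuousH1S S hpS _ (sLevel_dualTwist hpS hM')
  obtain ⟨R, hR, hcov, -⟩ := exists_places K S
  set Φ := cosetSelfDual (p := p) (K := K)
  have hΦ := cosetSelfDual_equiv (p := p) hK
  have hb := cosetSelfDual_bijective (p := p) (K := K)
  have d1 := (locSTotal S (cosetRep p K)).finrank_range_add_finrank_ker
  have d2 := (locSTotal S ((cosetRep p K).dualTwist (cycloChar p))).finrank_range_add_finrank_ker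
  rw [finrank_ker_locSTotal hp2] at d1 d2
  have e1 := finrank_continuousH1S_congr (S := S) Φ hΦ hb
  have e2 := finrank_sha₁_congr (S := S) Φ hΦ hb
  have e3 := le_finrank_range_cosetRep hK hL hLK hpS hp2 hR hcov
  have hinf : finrank ℚ K = 2 * Fintype.card (InfinitePlace K) := by
    have := isTotallyComplex_of_hasRoots hK hp2
    rw [IsTotallyComplex.finrank, InfinitePlace.card_eq_nrRealPlaces_add_nrComplexPlaces,
      IsTotallyComplex.nrRealPlaces_eq_zero, zero_add]
  have hcount : ∑ q : S, finrank (ZMod p)
      (continuousH1 (primeLocalToGlobal q.1) (Rep.res (primeLocalToGlobal q.1) (cosetRep p K)))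
      ≤ 2 * (R.card + Fintype.card (InfinitePlace K)) := by
    rw [Finset.sum_congr rfl fun (q : S) _ => (localEuler q.1 _ hM).2, Finset.sum_add_distrib,
      Finset.sum_add_distrib]
    have hR' : ∀ i ∈ R, i.1 ∈ S := fun i hi => by
      have : i ∈ covered K R := mem_covered.2 ⟨i, hi, rfl, 1, by simp⟩
      rw [hcov] at this
      exact this
    have h1 : ∑ q : S, finrank (ZMod p)
        (Rep.res (primeLocalToGlobal q.1) (cosetRep p K)).ρ.invariants ≤ R.card := by
      rw [Finset.card_eq_sum_card_fiberwise hR']
      refine le_trans ?_ (Finset.sum_coe_sort S fun q => (R.filter fun i => i.1 = q).card).le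
      exact Finset.sum_le_sum fun q _ => finrank_invariants_cosetRep_le hcov q.2
    have h2 : ∀ q : S, finrank (ZMod p)
        (Rep.res (primeLocalToGlobal q.1) ((cosetRep p K).dualTwist (cycloChar p))).ρ.invariants =
        finrank (ZMod p) (Rep.res (primeLocalToGlobal q.1) (cosetRep p K)).ρ.invariants :=
      fun q => (finrank_res_invariants_congr Φ hΦ hb (primeLocalToGlobal q.1)).symm
    have h3 : ∑ q : S, (if q.1 = pPrime p then finrank (ZMod p) (cosetRep p K) else 0) =
        finrank (ZMod p) (cosetRep p K) := by
      refine (Finset.sum_coe_sort S fun q =>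
        if q = pPrime p then finrank (ZMod p) (cosetRep p K) else 0).trans ?_
      rw [Finset.sum_ite_eq', if_pos hpS]
    rw [Finset.sum_congr rfl fun q _ => h2 q, h3, finrank_cosetRep, hinf]
    omega
  rw [eulerDefect_add_eq hp2 hpS _ hM]
  omega

end FLTAgent.GWEuler.Middle
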