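import Fermat.Agent.IdeleClassCohomology.NormKill

/-!
# Power classes split at a set of places

`card_splitClasses_le`: over a field containing the roots of unity there are at most as many power
classes trivial at all places over `S` as `S`-class group elements modulo `p`.
-/

set_option autoImplicit false

noncomputable section

namespace FLTAgent.GWEuler.Middle

open FLTAgent.GalCoh FLTAgent.GlobalDuality FLTAgent.IdeleClassCohomology Module NumberField

variable {p : ℕ} [hp : Fact p.Prime] {K : IntermediateField ℚ QQbar} [FiniteDimensional ℚ K]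
  {S : Finset Nat.Primes} {R : Finset (Nat.Primes × Gam)}

variable (p K S R) in
/-- The power classes which are locally trivial at the places in `R`. -/
def splitClasses : AddSubgroup (PowClass p K) :=
  powerClasses p K S ⊓ ⨅ i : R, (locPow K p i.1).ker

omit [FiniteDimensional ℚ K] in
theorem mem_splitClasses {w : PowClass p K} :
    w ∈ splitClasses p K S R ↔ w ∈ powerClasses p K S ∧ ∀ i : R, locPow K p i.1 w = 0 := by
  simp [splitClasses, AddSubgroup.mem_iInf]

theorem card_splitClasses_le (hK : HasRoots p K) (hp2 : p ≠ 2)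
    (hcov : covered K R = {j | j.1 ∈ S}) (hpS : (⟨p, hp.out⟩ : Nat.Primes) ∈ S) :
    Nat.card (splitClasses p K S R) ≤
      (nsmulAddMonoidHom p : SClass K S →+ SClass K S).range.index := by
  classical
  have := finite_sClass (K := K) (S := S)
  set f := (nsmulAddMonoidHom p : SClass K S →+ SClass K S)
  set π := QuotientAddGroup.mk' ((fixedPrincipal K).range ⊔ awayUnits K S)
  have hidx : (f.range.comap π).index = f.range.index :=
    AddSubgroup.index_comap_of_surjective _ (QuotientAddGroup.mk'_surjective _)
  have : Finite (fixedPts K.fixingSubgroup Idele ⧸ f.range.comap π) :=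
    Nat.finite_of_card_ne_zero (by
      rw [← AddSubgroup.index_eq_card, hidx]; exact AddSubgroup.index_ne_zero_of_finite)
  obtain ⟨-, -, -, -, hcard⟩ := card_le_of_kummerKer hK (isTotallyComplex_of_hasRoots hK hp2)
    (splitClasses p K S R) (f.range.comap π)
    (fun y => ⟨π y, (map_nsmul π p y).symm⟩)
    (fun a ha H hH x hx => by
      obtain ⟨hac, hloc⟩ := mem_splitClasses.1 ha
      have haV : a ∈ powerElts p K S := mem_powerElts_of_mk hac
      have hbase := baseGroup_le_of_powerElts hcov hpS haV hH
      obtain ⟨z, hz⟩ := hx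
      obtain ⟨y, rfl⟩ := QuotientAddGroup.mk'_surjective _ z
      replace hz : π (p • y) = π x := (map_nsmul π p y).trans hz
      obtain ⟨t, ht, rfl⟩ := (QuotientAddGroup.mk'_eq_mk' _).1 hz
      refine add_mem (hbase (AddSubgroup.mem_sup_left (AddSubgroup.mem_sup_right ⟨y, rfl⟩))) ?_
      refine (sup_le (fun u hu => hbase (AddSubgroup.mem_sup_left (AddSubgroup.mem_sup_left hu)))
        (fun j hj => hH.local_mem j fun q σ => ?_) : _ ≤ H) ht
      by_cases hq : q ∈ S
      · obtain ⟨i, hi, hij⟩ := mem_covered.1 (show (q, σ) ∈ covered K R by rw [hcov]; exact hq)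
        have h0 : IdeleClassCohomology.locClass K p i (fixedPrincipal K a) = 0 := by
          rw [← locPow_mk]
          exact hloc ⟨i, hi⟩
        obtain ⟨u, hu, hu'⟩ := locClass_eq_zero_of_mem_cosetSet h0 hij
        exact Or.inr (Or.inl ⟨u.val, hu, by rw [← LU.val_nsmul, hu']; exact at_principal _ _ _⟩)
      · obtain ⟨e', he'⟩ := exists_norm_eq_of_powerElts haV hq σ
        exact Or.inr (Or.inr ⟨hj q hq σ, fun h => hq
          ((Subtype.ext h : q = ⟨p, hp.out⟩) ▸ hpS), _, placeEmb_mem_locField e', he'⟩))
  rw [← AddSubgroup.index_eq_card, hidx] at hcard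
  exact hcard

end FLTAgent.GWEuler.Middle
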