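import Fermat.Agent.GWEuler.MiddleExact.Count
import Fermat.Agent.GWEuler.MiddleExact.SplitClasses
import Fermat.Agent.GWEuler.GlobalUnits.Finite
import Fermat.Agent.GWEuler.ReciprocityProof

/-!
# Global classes of a permutation module

For a field `K` containing the roots of unity the classes of the functions on the cosets of `K`,
given by roots of conjugates of power classes outside `S`, fill at least half of the local groups
(`le_finrank_range_cosetRep`).
-/

set_option autoImplicit false

noncomputable section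

open CategoryTheory groupCohomology Module ExtCitation

namespace FLTAgent.GWEuler.Middle

open FLTAgent.GalCoh FLTAgent.GlobalDuality FLTAgent.IdeleClassCohomology FLTAgent.LocalDuality

variable {p : ℕ} [hp : Fact p.Prime] (K : IntermediateField ℚ QQbar)

/-- The cosets of the group of a field. -/
abbrev Cosets : Type := Gam ⧸ K.fixingSubgroup

variable (p) in
/-- Functions on the cosets of the group of a field. -/
def cosetRho : Representation (ZMod p) Gam (Cosets K → ZMod p) where
  toFun g := LinearMap.funLeft (ZMod p) (ZMod p) fun x => g⁻¹ • x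
  map_one' := LinearMap.ext fun f => funext fun x => by simp [LinearMap.funLeft_apply]
  map_mul' g h := LinearMap.ext fun f => funext fun x => by
    simp [LinearMap.funLeft_apply, mul_smul]

variable (p) in
/-- The permutation module of a field. -/
def cosetRep : Rep.{0} (ZMod p) Gam := Rep.of (cosetRho p K)

theorem cosetRep_apply (g : Gam) (f : Cosets K → ZMod p) (x : Cosets K) :
    (cosetRep p K).ρ g f x = f (g⁻¹ • x) := rfl

variable {K}

theorem smul_coset_eq_self {L : Layer} (hLK : L.sub ≤ K.fixingSubgroup) {s : Gam} (hs : s ∈ L.sub)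
    (x : Cosets K) : s • x = x := by
  obtain ⟨y, rfl⟩ := QuotientGroup.mk_surjective x
  refine QuotientGroup.eq.2 (hLK ?_)
  have := (Layer.sub_normal L).conj_mem _ (inv_mem hs) y⁻¹
  simpa [smul_eq_mul, mul_assoc] using this

theorem cosetRep_trivial {L : Layer} (hLK : L.sub ≤ K.fixingSubgroup) :
    ∀ s ∈ L.sub, (cosetRep p K).ρ s = 1 := fun s hs =>
  LinearMap.ext fun f => funext fun x =>
    (cosetRep_apply K s f x).trans (congrArg f (smul_coset_eq_self hLK (inv_mem hs) x))

theorem finite_cosets [FiniteDimensional ℚ K] : Finite (Cosets K) := by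
  obtain ⟨M, hM⟩ := exists_layer_sub_le K
  have := M.finite
  have : K.fixingSubgroup.FiniteIndex := Subgroup.finiteIndex_of_le hM
  exact Subgroup.finite_quotient_of_finiteIndex

instance [FiniteDimensional ℚ K] : FiniteDimensional (ZMod p) (cosetRep p K) := by
  have := finite_cosets (K := K)
  exact inferInstanceAs (FiniteDimensional (ZMod p) (Cosets K → ZMod p))

theorem finrank_cosetRep [FiniteDimensional ℚ K] :
    finrank (ZMod p) (cosetRep p K) = finrank ℚ K := by
  have := finite_cosets (K := K)
  have := Fintype.ofFinite (Cosets K)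
  rw [IntermediateField.finrank_eq_fixingSubgroup_index QQbar K, Subgroup.index_eq_card,
    Nat.card_eq_fintype_card]
  exact Module.finrank_fintype_fun_eq_card (ZMod p)

variable (hK : HasRoots p K)

/-- The cyclotomic character on cosets. -/
def cosetChar (x : Cosets K) : (ZMod p)ˣ := cycloChar p x.out

include hK in
theorem cosetChar_mk (σ : Gam) :
    cosetChar (p := p) (QuotientGroup.mk σ : Cosets K) = cycloChar p σ := by
  obtain ⟨h, hh⟩ := QuotientGroup.mk_out_eq_mul K.fixingSubgroup σ
  rw [cosetChar, hh, map_mul, (hasRoots_iff_cycloChar K).1 hK h h.2, mul_one]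

include hK in
theorem cosetChar_smul (g : Gam) (x : Cosets K) :
    cosetChar (p := p) (g • x) = cycloChar p g * cosetChar x := by
  obtain ⟨σ, rfl⟩ := QuotientGroup.mk_surjective x
  rw [cosetChar_mk hK, ← map_mul]
  exact cosetChar_mk hK (g * σ)

variable (K) in
/-- A family of roots of the conjugates of an element. -/
def IsRootFamily (a : fixedPts K.fixingSubgroup GU) (r : Cosets K → GU) : Prop :=
  ∀ σ : Gam, p • r (QuotientGroup.mk σ) = σ • a.1

theorem exists_rootFamily (a : fixedPts K.fixingSubgroup GU) :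
    ∃ r, IsRootFamily (p := p) K a r := by
  refine ⟨fun x => root p (x.out • a.1), fun σ => ?_⟩
  obtain ⟨h, hh⟩ := QuotientGroup.mk_out_eq_mul K.fixingSubgroup σ
  rw [nsmul_root, hh, mul_smul, a.2 _ h.2]

omit hp in
theorem IsRootFamily.sub {a b : fixedPts K.fixingSubgroup GU} {r r' : Cosets K → GU}
    (h : IsRootFamily (p := p) K a r) (h' : IsRootFamily (p := p) K b r') :
    IsRootFamily (p := p) K (a - b) (r - r') := fun σ => by
  rw [Pi.sub_apply, nsmul_sub, h, h', AddSubgroup.coe_sub, smul_sub]

theorem exists_sub_eq_torsion {a : fixedPts K.fixingSubgroup GU} {r : Cosets K → GU}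
    (h : IsRootFamily (p := p) K a r) (g : Gam) (x : Cosets K) :
    ∃ e, torsionHom p ((cosetChar x : (ZMod p)ˣ) * e : ZMod p) = g • r (g⁻¹ • x) - r x := by
  obtain ⟨σ, rfl⟩ := QuotientGroup.mk_surjective x
  obtain ⟨c, hc⟩ := exists_torsionHom_eq p (r := g • r (g⁻¹ • QuotientGroup.mk σ) -
      r (QuotientGroup.mk σ)) (by
    rw [nsmul_sub, smul_comm p g, show g⁻¹ • (QuotientGroup.mk σ : Cosets K) =
      QuotientGroup.mk (g⁻¹ * σ) from rfl, h, h, ← mul_smul, mul_inv_cancel_left, sub_self])
  exact ⟨((cosetChar (p := p) (QuotientGroup.mk σ : Cosets K))⁻¹ : (ZMod p)ˣ) * c, by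
    rw [← mul_assoc, Units.mul_inv, one_mul, hc]⟩

/-- The cocycle of a family of roots. -/
def rootCocycle {a : fixedPts K.fixingSubgroup GU} {r : Cosets K → GU}
    (h : IsRootFamily (p := p) K a r) (g : Gam) : cosetRep p K :=
  fun x => (exists_sub_eq_torsion h g x).choose

theorem rootCocycle_spec {a : fixedPts K.fixingSubgroup GU} {r : Cosets K → GU}
    (h : IsRootFamily (p := p) K a r) (g : Gam) (x : Cosets K) :
    torsionHom p ((cosetChar x : (ZMod p)ˣ) * (rootCocycle h g : Cosets K → ZMod p) x : ZMod p) =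
      g • r (g⁻¹ • x) - r x :=
  (exists_sub_eq_torsion h g x).choose_spec

theorem cosetChar_mul_inj {x : Cosets K} {c c' : ZMod p}
    (h : torsionHom p ((cosetChar x : (ZMod p)ˣ) * c : ZMod p) =
      torsionHom p ((cosetChar x : (ZMod p)ˣ) * c' : ZMod p)) : c = c' :=
  (Units.mul_right_inj _).1 (torsionHom_injective p h)

include hK in
theorem rootCocycle_mem {a : fixedPts K.fixingSubgroup GU} {r : Cosets K → GU}
    (h : IsRootFamily (p := p) K a r) : rootCocycle h ∈ cocycles₁ (cosetRep p K) := by
  refine (mem_cocycles₁_iff _).2 fun g k => funext fun x => cosetChar_mul_inj (x := x) ?_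
  show torsionHom p _ = torsionHom p ((cosetChar x : (ZMod p)ˣ) *
    ((rootCocycle h k : Cosets K → ZMod p) (g⁻¹ • x) + (rootCocycle h g : Cosets K → ZMod p) x) :
      ZMod p)
  have e := cosetChar_smul (p := p) hK g (g⁻¹ • x)
  rw [smul_inv_smul] at e
  rw [mul_add, map_add, rootCocycle_spec, rootCocycle_spec, e, Units.val_mul, mul_assoc,
    ← GWEuler.smul_torsionHom, rootCocycle_spec, smul_sub, mul_inv_rev, mul_smul k⁻¹, mul_smul g k]
  abel

theorem rootCocycle_sub {a b : fixedPts K.fixingSubgroup GU} {r r' : Cosets K → GU}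
    (h : IsRootFamily (p := p) K a r) (h' : IsRootFamily (p := p) K b r') (g : Gam) :
    rootCocycle (h.sub h') g = rootCocycle h g - rootCocycle h' g := funext fun x => by
  refine cosetChar_mul_inj (x := x) ?_
  show _ = torsionHom p ((cosetChar x : (ZMod p)ˣ) *
    ((rootCocycle h g : Cosets K → ZMod p) x - (rootCocycle h' g : Cosets K → ZMod p) x) : ZMod p)
  rw [mul_sub, map_sub, rootCocycle_spec, rootCocycle_spec, rootCocycle_spec, Pi.sub_apply,
    Pi.sub_apply, smul_sub]
  abel

variable {L : Layer} {S : Finset Nat.Primes}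

/-- A layer unramified outside `S` fixing a family of roots. -/
theorem exists_level_rootFamily [FiniteDimensional ℚ K] (hL : L.IsS S)
    (hLK : L.sub ≤ K.fixingSubgroup) (hpS : pPrime p ∈ S) {a : fixedPts K.fixingSubgroup GU}
    (ha : a ∈ powerElts p K S) {r : Cosets K → GU} (h : IsRootFamily (p := p) K a r) :
    ∃ L' : Layer, L'.IsS S ∧ L'.sub ≤ L.sub ∧ ∀ x, ∀ s ∈ L'.sub, s • r x = r x := by
  have hle : K ≤ L.field := by
    rw [← InfiniteGalois.fixedField_fixingSubgroup K,
      ← InfiniteGalois.fixedField_fixingSubgroup L.field]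
    exact IntermediateField.fixedField_antitone hLK
  obtain ⟨L', hle', hS', hroot⟩ := exists_rootLayer hL hp.out.ne_zero
    (fun q hq hd => hq (by
      rwa [show q = pPrime p from Subtype.ext ((Nat.prime_dvd_prime_iff_eq q.2 hp.out).1 hd)]))
    {a.1.val} (fun b hb => by
      rw [Finset.mem_singleton.1 hb]; exact hle (val_mem_of_fixed K a.2))
    (fun b hb q hq δ => by
      obtain ⟨e, he⟩ := exists_norm_eq_of_powerElts ha hq δ
      exact ⟨e, hle e.2, by rw [Finset.mem_singleton.1 hb]; exact he⟩)
  refine ⟨L', hS', Layer.sub_le hle', fun x s hs => ?_⟩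
  obtain ⟨σ, rfl⟩ := QuotientGroup.mk_surjective x
  have h1 : (σ⁻¹ • r (QuotientGroup.mk σ)).val ∈ L'.field :=
    hroot _ (Finset.mem_singleton_self _) _ (by
      rw [← GU.val_nsmul, smul_comm p σ⁻¹, h, inv_smul_smul])
  have h2 : (σ⁻¹ * s * σ) • σ⁻¹ • r (QuotientGroup.mk σ) = σ⁻¹ • r (QuotientGroup.mk σ) :=
    GU.ext ((IntermediateField.mem_fixingSubgroup_iff _ _).1
      (show σ⁻¹ * s * σ ∈ L'.sub by simpa using (Layer.sub_normal L').conj_mem s hs σ⁻¹) _ h1)
  rw [← mul_smul, mul_assoc, mul_inv_cancel, mul_one, mul_smul] at h2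
  exact MulAction.injective σ⁻¹ h2

variable (hL : L.IsS S) (hLK : L.sub ≤ K.fixingSubgroup) (hpS : pPrime p ∈ S)

include hK hL hLK hpS in
theorem exists_level_rootCocycle [FiniteDimensional ℚ K] {a : fixedPts K.fixingSubgroup GU}
    (ha : a ∈ powerElts p K S) {r : Cosets K → GU} (h : IsRootFamily (p := p) K a r) :
    IsLevelConstantS₁ S (⟨rootCocycle h, rootCocycle_mem hK h⟩ : cocycles₁ (cosetRep p K)) := by
  obtain ⟨L', hL', hle, hfix⟩ := exists_level_rootFamily hL hLK hpS ha h
  refine ⟨L'.field, hL', fun g s hs => funext fun x => cosetChar_mul_inj (x := x) ?_⟩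
  show torsionHom p ((cosetChar x : (ZMod p)ˣ) * (rootCocycle h (g * s) : Cosets K → ZMod p) x :
      ZMod p) = torsionHom p ((cosetChar x : (ZMod p)ˣ) *
    (rootCocycle h g : Cosets K → ZMod p) x : ZMod p)
  rw [rootCocycle_spec, rootCocycle_spec, mul_inv_rev, mul_smul s⁻¹,
    smul_coset_eq_self hLK (inv_mem (hle hs)), mul_smul g s, hfix _ s hs]

/-- The class of a family of roots. -/
def rootClass [FiniteDimensional ℚ K] {a : fixedPts K.fixingSubgroup GU}
    (ha : a ∈ powerElts p K S) {r : Cosets K → GU} (h : IsRootFamily (p := p) K a r) :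
    continuousH1S S (cosetRep p K) :=
  clsS₁ S _ ⟨⟨rootCocycle h, rootCocycle_mem hK h⟩, exists_level_rootCocycle hK hL hLK hpS ha h⟩

include hK in
/-- A family of roots with trivial class at `q` gives powers at the places over `q`. -/
theorem locPow_eq_zero_of_cobound [FiniteDimensional ℚ K] {a : fixedPts K.fixingSubgroup GU}
    {r : Cosets K → GU} (h : IsRootFamily (p := p) K a r) (q : Nat.Primes) (σ : Gam)
    (f : cosetRep p K)
    (hf : ∀ τ : LGal q, (cosetRep p K).ρ (loc q τ) f - f = rootCocycle h (loc q τ)) :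
    locPow K p (q, σ) (QuotientAddGroup.mk' (powers p K) a) = 0 := by
  set x : Cosets K := QuotientGroup.mk σ with hx
  set r' : GU := r x - torsionHom p
    ((cosetChar x : (ZMod p)ˣ) * (f : Cosets K → ZMod p) x : ZMod p)
  have hp' : p • r' = σ • a.1 := by
    show p • (r x - _) = _
    rw [nsmul_sub, nsmul_torsionHom, sub_zero, hx, h]
  have hfix : ∀ τ : LGal q, τ ∈ (locField K q σ).fixingSubgroup → τ • embU q r' = embU q r' := by
    intro τ hτ
    have hmem := mem_fixingSubgroup_locField_iff.1 hτ
    have hst : (loc q τ)⁻¹ • x = x := by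
      refine QuotientGroup.eq.2 ?_
      show ((loc q τ)⁻¹ * σ)⁻¹ * σ ∈ K.fixingSubgroup
      rw [mul_inv_rev, inv_inv]
      exact hmem
    have h1 := congrFun (hf τ) x
    change (f : Cosets K → ZMod p) ((loc q τ)⁻¹ • x) - (f : Cosets K → ZMod p) x =
      (rootCocycle h (loc q τ) : Cosets K → ZMod p) x at h1
    rw [hst, sub_self] at h1
    have h2 := rootCocycle_spec h (loc q τ) x
    rw [← h1, mul_zero, map_zero, hst] at h2
    have h3 : cycloChar p (loc q τ) = 1 := by
      have := cosetChar_smul (p := p) hK (loc q τ)⁻¹ x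
      rw [hst, map_inv] at this
      exact inv_eq_one.1 (right_eq_mul.1 this)
    rw [← embU_loc_smul]
    refine congrArg (embU q) ?_
    show loc q τ • (r x - _) = r x - _
    rw [smul_sub, GWEuler.smul_torsionHom, h3, Units.val_one, one_mul, sub_eq_zero.1 h2.symm]
  rw [locPow_mk]
  refine (locClass_eq_zero_iff p (q, σ) _).2 ⟨embU q r', ?_, ?_⟩
  · rw [← InfiniteGalois.fixedField_fixingSubgroup (locField K q σ),
      IntermediateField.mem_fixedField_iff]
    intro τ hτ
    exact congrArg LU.val (hfix τ hτ)
  · show p • embU q r' = (fixedPrincipal K a).1.at q σ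
    rw [← map_nsmul, hp']
    refine LU.ext ?_
    rw [at_fixedPrincipal, val_embU, at_principal, GU.val_smul]

include hK hL hLK hpS in
/-- The classes of the permutation module give at least as many local classes as there are
places. -/
theorem le_finrank_range_cosetRep [FiniteDimensional ℚ K] (hp2 : p ≠ 2)
    {R : Finset (Nat.Primes × Gam)} (hR : IsPlaces K R) (hcov : covered K R = {j | j.1 ∈ S}) :
    R.card + Fintype.card (NumberField.InfinitePlace K) ≤
      finrank (ZMod p) (LinearMap.range (locSTotal S (cosetRep p K))) := by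
  classical
  have hM : SLevel S (cosetRep p K) := ⟨L.field, hL, cosetRep_trivial hLK⟩
  have := finite_continuousH1S S hpS (cosetRep p K) hM
  have := finite_sClass (K := K) (S := S)
  set cS := (nsmulAddMonoidHom p : SClass K S →+ SClass K S).range.index
  have hV := card_powerClasses (p := p) (S := S) hK hR hcov
  have : Finite (powerClasses p K S) := Nat.finite_of_card_ne_zero (by
    rw [hV]; exact mul_ne_zero (pow_ne_zero _ hp.out.ne_zero)
      AddSubgroup.index_ne_zero_of_finite)
  have : Finite (LinearMap.range (locSTotal S (cosetRep p K))) :=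
    Module.finite_of_finite (ZMod p)
  have : Finite (splitClasses p K S R) := Finite.of_injective
    (fun w => (⟨w.1, (mem_splitClasses.1 w.2).1⟩ : powerClasses p K S))
    fun u v huv => Subtype.ext (congrArg (fun z : powerClasses p K S => z.1) huv)
  choose av hav using fun w : powerClasses p K S =>
    QuotientAddGroup.mk'_surjective (powers p K) w.1
  have havV : ∀ w, av w ∈ powerElts p K S := fun w => mem_powerElts_of_mk (by rw [hav]; exact w.2)
  choose rv hrv using fun w : powerClasses p K S => exists_rootFamily (p := p) (av w)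
  let img : powerClasses p K S → LinearMap.range (locSTotal S (cosetRep p K)) := fun w =>
    ⟨locSTotal S _ (rootClass hK hL hLK hpS (havV w) (hrv w)), ⟨_, rfl⟩⟩
  let rep : LinearMap.range (locSTotal S (cosetRep p K)) → powerClasses p K S :=
    Function.invFun img
  have hdiff : ∀ w, (w - rep (img w)).1 ∈ splitClasses p K S R := fun w => by
    set w' := rep (img w)
    have hw : img w' = img w := Function.invFun_eq ⟨w, rfl⟩
    refine mem_splitClasses.2 ⟨(w - w').2, fun i => ?_⟩
    have hi : i.1.1 ∈ S := by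
      have : i.1 ∈ covered K R := mem_covered.2 ⟨i.1, i.2, rfl, 1, by simp⟩
      rw [hcov] at this
      exact this
    have h1 : locS S ⟨i.1.1, hi⟩ (cosetRep p K) (rootClass hK hL hLK hpS (havV w) (hrv w) -
        rootClass hK hL hLK hpS (havV w') (hrv w')) = 0 := by
      rw [map_sub, sub_eq_zero]
      exact (congrFun (congrArg Subtype.val hw) ⟨i.1.1, hi⟩).symm
    unfold rootClass at h1
    rw [← map_sub] at h1
    obtain ⟨f, hf⟩ := (locRes_eq_zero_iff (extArithLoc S) _ (Sum.inr ⟨i.1.1, hi⟩)).1
      (congrArg Subtype.val h1)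
    rw [AddSubgroup.coe_sub, ← hav w, ← hav w', ← map_sub]
    exact locPow_eq_zero_of_cobound hK ((hrv w).sub (hrv w')) i.1.1 i.1.2 f fun τ => by
      rw [rootCocycle_sub (hrv w) (hrv w')]
      exact hf τ
  have hinj : Function.Injective fun w => (img w, (⟨_, hdiff w⟩ : splitClasses p K S R)) := by
    intro u v huv
    obtain ⟨e1, e2⟩ := Prod.mk.injEq _ _ _ _ ▸ huv
    have e3 := congrArg (fun z : splitClasses p K S R => z.1) e2
    simp only [AddSubgroup.coe_sub, e1] at e3
    exact Subtype.ext (sub_left_inj.1 e3)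
  have hcard := Nat.card_le_card_of_injective _ hinj
  rw [hV, Nat.card_prod, Module.natCard_eq_pow_finrank (K := ZMod p)
    (V := LinearMap.range (locSTotal S (cosetRep p K))), Nat.card_zmod] at hcard
  refine (Nat.pow_le_pow_iff_right hp.out.one_lt).1 (Nat.le_of_mul_le_mul_right
    (hcard.trans (Nat.mul_le_mul_left _ (card_splitClasses_le hK hp2 hcov hpS))) ?_)
  exact Nat.pos_of_ne_zero AddSubgroup.index_ne_zero_of_finite

end FLTAgent.GWEuler.Middle
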