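import Fermat.Agent.GWEuler.DefectAdditive

/-!
# Exactness in the middle by counting

Global images of a module and its dual twist are orthogonal, so enough global classes give
exactness in the middle (`middleExact_of_le`); exactness passes to direct summands
(`middleExact_of_retract`).
-/

set_option autoImplicit false

noncomputable section

open CategoryTheory groupCohomology Module ExtCitation

namespace FLTAgent.GWEuler.Middle

open FLTAgent.LocalDuality

local notation "Γℚ" => AlgebraicClosure ℚ ≃ₐ[ℚ] AlgebraicClosure ℚ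

variable {p : ℕ} [Fact p.Prime] {S : Finset Nat.Primes}

theorem finite_locH1 {A : Rep.{0} (ZMod p) Γℚ} [FiniteDimensional (ZMod p) A] (hA : SLevel S A)
    (q : Nat.Primes) : Module.Finite (ZMod p)
      (continuousH1 (primeLocalToGlobal q) (Rep.res (primeLocalToGlobal q) A)) :=
  (localEuler q A hA).1

/-- Enough global classes give exactness in the middle. -/
theorem middleExact_of_le (R : Reciprocity p) (hp2 : p ≠ 2) (hpS : pPrime p ∈ S)
    (M : Rep.{0} (ZMod p) Γℚ) [FiniteDimensional (ZMod p) M] (hM : SLevel S M)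
    [Module.Finite (ZMod p) (continuousH1S S M)]
    [Module.Finite (ZMod p) (continuousH1S S (M.dualTwist (cycloChar p)))]
    (h : ∑ q : S, finrank (ZMod p)
        (continuousH1 (primeLocalToGlobal q.1) (Rep.res (primeLocalToGlobal q.1) M))
      ≤ finrank (ZMod p) (LinearMap.range (locSTotal S M))
        + finrank (ZMod p) (LinearMap.range (locSTotal S (M.dualTwist (cycloChar p))))) :
    MiddleExact R S M hM := by
  classical
  set M' := M.dualTwist (cycloChar p)
  have : FiniteDimensional (ZMod p) M' :=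
    inferInstanceAs (FiniteDimensional (ZMod p) (Dual (ZMod p) M))
  have : ∀ q : S, Module.Finite (ZMod p) (continuousH1 (primeLocalToGlobal q.1)
      (Rep.res (primeLocalToGlobal q.1) M)) := fun q => finite_locH1 hM q.1
  have : ∀ q : S, Module.Finite (ZMod p) (continuousH1 (primeLocalToGlobal q.1)
      (Rep.res (primeLocalToGlobal q.1) M')) :=
    fun q => finite_locH1 (sLevel_dualTwist hpS hM) q.1
  set b := locDualMap R S M hM
  have hb : ∀ v w, b v w = ∑ q : S, contPairing R M q.1 (hM.smooth_loc_dual q.1) (w q) (v q) :=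
    locDualMap_apply R S M hM
  have hbinj : Function.Injective b := locDualMap_injective R S M hM
  have hle := map_range_locSTotal_le R S M hp2 hpS hM
  have hmap : finrank (ZMod p) ((LinearMap.range (locSTotal S M')).map b)
      = finrank (ZMod p) (LinearMap.range (locSTotal S M')) :=
    (Submodule.equivMapOfInjective b hbinj (LinearMap.range (locSTotal S M'))).finrank_eq.symm
  have hann := Subspace.finrank_add_finrank_dualAnnihilator_eq (LinearMap.range (locSTotal S M))
  rw [Module.finrank_pi_fintype] at hann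
  have heq : (LinearMap.range (locSTotal S M')).map b
      = (LinearMap.range (locSTotal S M)).dualAnnihilator := by
    refine Submodule.eq_of_le_of_finrank_le hle ?_
    rw [hmap]
    refine le_trans (le_of_eq ?_) (Nat.sub_le_iff_le_add'.2 h)
    rw [← hann, Nat.add_sub_cancel_left]
  intro u hu
  have hu' : b u ∈ (LinearMap.range (locSTotal S M')).map b := by
    rw [heq, Submodule.mem_dualAnnihilator]
    rintro _ ⟨x, rfl⟩
    exact (hb _ _).trans (hu x)
  obtain ⟨v, ⟨y, rfl⟩, hv⟩ := hu'
  exact ⟨y, hbinj hv⟩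

/-- Exactness in the middle passes to direct summands. -/
theorem middleExact_of_retract (R : Reciprocity p) (V W : Rep.{0} (ZMod p) Γℚ)
    (ι : V →ₗ[ZMod p] W) (π : W →ₗ[ZMod p] V)
    (hι : ∀ (g : Γℚ) (v : V), ι (V.ρ g v) = W.ρ g (ι v))
    (hπ : ∀ (g : Γℚ) (w : W), π (W.ρ g w) = V.ρ g (π w))
    (hid : ∀ v, π (ι v) = v) (hV : SLevel S V) (hW : SLevel S W)
    (hmid : MiddleExact R S W hW) : MiddleExact R S V hV := by
  intro u hu
  have eι := dualMap_equiv ι hι
  have eπ := dualMap_equiv π hπ
  obtain ⟨y, hy⟩ := hmid (fun q => mapH₁ (primeLocalToGlobal q.1)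
      (A := Rep.res (primeLocalToGlobal q.1) (V.dualTwist (cycloChar p)))
      (B := Rep.res (primeLocalToGlobal q.1) (W.dualTwist (cycloChar p)))
      π.dualMap (fun g f => eπ (primeLocalToGlobal q.1 g) f) (u q)) fun x => by
    refine Eq.trans (Finset.sum_congr rfl fun q _ => ?_) (hu (mapHS₁ π hπ x))
    obtain ⟨c, rfl⟩ := clsS₁_surjective W x
    obtain ⟨d, hd⟩ := cls₁_surjective (u q)
    rw [← hd, mapH₁_cls, mapHS₁_cls]
    have e1 : locS S q W (clsS₁ S W c) = locClass S q.1 W c.1 c.2 :=
      Subtype.ext (coe_locClass S q.1 W c.1 c.2).symm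
    have e2 : locS S q V (clsS₁ S V (mapZS₁ π hπ c))
        = locClass S q.1 V (mapZS₁ π hπ c).1 (mapZS₁ π hπ c).2 :=
      Subtype.ext (coe_locClass S q.1 V (mapZS₁ π hπ c).1 (mapZS₁ π hπ c).2).symm
    rw [e1, e2]
    refine congrArg (R.inv q.1) ?_
    unfold locClass
    rw [cup_cls, cup_cls]
    refine congrArg (cls₂ _ _) (Subtype.ext (funext fun gk => ?_))
    exact congrArg (fun f : Dual (ZMod p) W => f ((c.1 : Γℚ → W) (primeLocalToGlobal q.1 gk.1)))
      (eπ (primeLocalToGlobal q.1 gk.1) ((d.1 : _ → _) gk.2)).symm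
  refine ⟨mapHS₁ ι.dualMap eι y, funext fun q => ?_⟩
  obtain ⟨c, rfl⟩ := clsS₁_surjective _ y
  have h := congrFun hy q
  change locS S q (W.dualTwist (cycloChar p)) (clsS₁ S _ c) = _ at h
  show locS S q (V.dualTwist (cycloChar p)) _ = u q
  obtain ⟨d, hd⟩ := cls₁_surjective (u q)
  rw [← hd, mapH₁_cls] at h
  rw [← hd, mapHS₁_cls]
  have h2 := congrArg (mapH₁ (primeLocalToGlobal q.1)
      (A := Rep.res (primeLocalToGlobal q.1) (W.dualTwist (cycloChar p)))
      (B := Rep.res (primeLocalToGlobal q.1) (V.dualTwist (cycloChar p)))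
      ι.dualMap fun g f => eι (primeLocalToGlobal q.1 g) f) h
  rw [mapH₁_cls, show locS S q (W.dualTwist (cycloChar p)) (clsS₁ S _ c)
    = locClass S q.1 (W.dualTwist (cycloChar p)) c.1 c.2 from
      Subtype.ext (coe_locClass S q.1 _ c.1 c.2).symm] at h2
  let c' : levelCocyclesS₁ S (V.dualTwist (cycloChar p)) := mapZS₁ ι.dualMap eι c
  rw [show locS S q (V.dualTwist (cycloChar p)) (clsS₁ S _ (mapZS₁ ι.dualMap eι c))
    = locClass S q.1 (V.dualTwist (cycloChar p)) c'.1 c'.2 from
      Subtype.ext (coe_locClass S q.1 _ c'.1 c'.2).symm]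
  unfold locClass at h2 ⊢
  rw [mapH₁_cls] at h2
  refine Eq.trans ?_ (h2.trans ?_)
  · rfl
  · refine congrArg (cls₁ _ _) (Subtype.ext (Subtype.ext (funext fun g => ?_)))
    exact LinearMap.ext fun v => congrArg (show Dual (ZMod p) V from (d.1 : _ → _) g) (hid v)

end FLTAgent.GWEuler.Middle
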