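import Fermat.Agent.GWEuler.MiddleExact.CosetDefect
import Fermat.Agent.GWEuler.AdaptedLayer

/-!
# Functions on cosets with values in a module

If the group of the field acts through a `p`-group such a module is filtered by copies of the
permutation module, so its `defectSum` is nonnegative (`defectSum_indRep_nonneg`).
-/

set_option autoImplicit false

noncomputable section

open CategoryTheory groupCohomology Module ExtCitation

namespace FLTAgent.GWEuler.Middle

open FLTAgent.GalCoh FLTAgent.GlobalDuality FLTAgent.IdeleClassCohomology FLTAgent.LocalDuality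

variable {p : ℕ} [hp : Fact p.Prime]

/-- The sum of the defects of a module and of its dual twist. -/
def defectSum (S : Finset Nat.Primes) (M : Rep.{0} (ZMod p) Gam) : ℤ :=
  eulerDefect S M + eulerDefect S (M.dualTwist (cycloChar p))

theorem dual_exact {A B C : Rep.{0} (ZMod p) Gam} (ι : A →ₗ[ZMod p] B) (π : B →ₗ[ZMod p] C)
    (hsurj : Function.Surjective π) (hex : ∀ b, π b = 0 ↔ ∃ a, ι a = b) (f : Dual (ZMod p) B) :
    ι.dualMap f = 0 ↔ ∃ u, π.dualMap u = f := by
  refine ⟨fun hf => ?_, fun ⟨u, hu⟩ => ?_⟩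
  · obtain ⟨s, hs⟩ := π.exists_rightInverse_of_surjective (LinearMap.range_eq_top.mpr hsurj)
    refine ⟨f.comp s, LinearMap.ext fun b => ?_⟩
    have h0 : π (s (π b) - b) = 0 := by
      rw [map_sub]; exact sub_eq_zero.mpr (LinearMap.congr_fun hs (π b))
    obtain ⟨a, ha⟩ := (hex _).mp h0
    have h1 : f (s (π b) - b) = 0 := ha ▸ LinearMap.congr_fun hf a
    rw [map_sub, sub_eq_zero] at h1
    exact h1
  · subst hu
    exact LinearMap.ext fun a => by
      show u (π (ι a)) = 0
      rw [(hex _).mpr ⟨a, rfl⟩, map_zero]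

/-- The sum of the defects is superadditive over an adapted layer. -/
theorem defectSum_superadd (hp2 : p ≠ 2) {L : Layer} {S : Finset Nat.Primes}
    (hA : IsAdapted (p := p) L S)
    (hrank : ∀ (N : Rep.{0} (ZMod p) Gam) [FiniteDimensional (ZMod p) N],
      (∀ g ∈ L.sub, N.ρ g = 1) → RankTwo S N)
    {A B C : Rep.{0} (ZMod p) Gam} [FiniteDimensional (ZMod p) A] [FiniteDimensional (ZMod p) B]
    [FiniteDimensional (ZMod p) C] (ι : A →ₗ[ZMod p] B) (π : B →ₗ[ZMod p] C)
    (hι : ∀ (g : Gam) (a : A), ι (A.ρ g a) = B.ρ g (ι a))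
    (hπ : ∀ (g : Gam) (b : B), π (B.ρ g b) = C.ρ g (π b))
    (hinj : Function.Injective ι) (hsurj : Function.Surjective π)
    (hex : ∀ b, π b = 0 ↔ ∃ a, ι a = b) (htA : ∀ g ∈ L.sub, A.ρ g = 1)
    (htB : ∀ g ∈ L.sub, B.ρ g = 1) (htC : ∀ g ∈ L.sub, C.ρ g = 1) :
    defectSum S A + defectSum S C ≤ defectSum S B := by
  have := finiteDimensional_dualTwist A
  have := finiteDimensional_dualTwist B
  have := finiteDimensional_dualTwist C
  have hB : SLevel S B := sLevel_of_trivial hA.isS htB
  have hfin : ∀ (N : Rep.{0} (ZMod p) Gam) [FiniteDimensional (ZMod p) N], SLevel S N →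
      Module.Finite (ZMod p) (continuousH1S S N) :=
    fun N _ hN => finite_continuousH1S S hA.pmem N hN
  have h1 := eulerDefect_superadd ι π hι hπ hinj hsurj hex hp2 (shaDuality hp2 hA.pmem) hA.pmem hB
    hfin (hrank A htA) (hrank B htB) (hrank C htC)
  have h2 := eulerDefect_superadd (A := C.dualTwist (cycloChar p))
    (B := B.dualTwist (cycloChar p)) (C := A.dualTwist (cycloChar p)) π.dualMap ι.dualMap
    (dualMap_equiv π hπ) (dualMap_equiv ι hι)
    (LinearMap.dualMap_injective_of_surjective hsurj)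
    (LinearMap.dualMap_surjective_of_injective hinj) (fun f => dual_exact ι π hsurj hex f)
    hp2 (shaDuality hp2 hA.pmem) hA.pmem (sLevel_dualTwist hA.pmem hB) hfin
    (hrank _ (dualTwist_trivial_layer hA.mu htC)) (hrank _ (dualTwist_trivial_layer hA.mu htB))
    (hrank _ (dualTwist_trivial_layer hA.mu htA))
  unfold defectSum
  linarith

variable (K : IntermediateField ℚ QQbar) (M : Rep.{0} (ZMod p) Gam)

/-- A subspace stable under the group of the field. -/
def IsStableBy (V : Submodule (ZMod p) M) : Prop :=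
  ∀ u ∈ K.fixingSubgroup, ∀ v ∈ V, M.ρ u v ∈ V

/-- The functions on the cosets with values in the conjugates of a subspace. -/
def indSub (V : Submodule (ZMod p) M) : Submodule (ZMod p) (Cosets K → M) where
  carrier := {f | ∀ σ : Gam, M.ρ σ⁻¹ (f (QuotientGroup.mk σ)) ∈ V}
  zero_mem' σ := by simp
  add_mem' {a b} ha hb σ := by
    rw [Pi.add_apply, map_add]
    exact V.add_mem (ha σ) (hb σ)
  smul_mem' c a ha σ := by
    rw [Pi.smul_apply, map_smul]
    exact V.smul_mem c (ha σ)

theorem mapRho_mem_indSub (V : Submodule (ZMod p) M) (g : Gam) (f : Cosets K → M)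
    (hf : f ∈ indSub K M V) : mapRho (Cosets K) M g f ∈ indSub K M V := fun σ => by
  show M.ρ σ⁻¹ (M.ρ g (f (QuotientGroup.mk (g⁻¹ * σ)))) ∈ V
  rw [← Module.End.mul_apply, ← map_mul, show σ⁻¹ * g = (g⁻¹ * σ)⁻¹ by group]
  exact hf _

/-- The action on these functions. -/
def indRho (V : Submodule (ZMod p) M) : Representation (ZMod p) Gam (indSub K M V) where
  toFun g := (mapRho (Cosets K) M g).restrict (mapRho_mem_indSub K M V g)
  map_one' := LinearMap.ext fun f => Subtype.ext
    (show mapRho (Cosets K) M 1 f.1 = f.1 by rw [map_one]; rfl)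
  map_mul' g h := LinearMap.ext fun f => Subtype.ext
    (show mapRho (Cosets K) M (g * h) f.1 = _ by rw [map_mul]; rfl)

/-- These functions as a module. -/
def indRep (V : Submodule (ZMod p) M) : Rep.{0} (ZMod p) Gam := Rep.of (indRho K M V)

theorem indRep_apply (V : Submodule (ZMod p) M) (g : Gam) (f : indRep K M V) (x : Cosets K) :
    ((indRep K M V).ρ g f : indSub K M V).1 x = M.ρ g ((f : indSub K M V).1 (g⁻¹ • x)) := rfl

variable {K M}

instance [FiniteDimensional ℚ K] [FiniteDimensional (ZMod p) M] (V : Submodule (ZMod p) M) :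
    FiniteDimensional (ZMod p) (indRep K M V) := by
  have := finite_cosets (K := K)
  exact inferInstanceAs (FiniteDimensional (ZMod p) (indSub K M V))

theorem indRep_trivial {L : Layer} (hLK : L.sub ≤ K.fixingSubgroup)
    (htriv : ∀ g ∈ L.sub, M.ρ g = 1) (V : Submodule (ZMod p) M) :
    ∀ g ∈ L.sub, (indRep K M V).ρ g = 1 := fun g hg => LinearMap.ext fun f =>
  Subtype.ext (funext fun x => (indRep_apply K M V g f x).trans (by
    rw [smul_coset_eq_self hLK (inv_mem hg), htriv g hg]; rfl))

/-- Evaluation of a fixed functional. -/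
theorem functional_out {V : Submodule (ZMod p) M} {φ : M →ₗ[ZMod p] ZMod p}
    (hφ : ∀ u ∈ K.fixingSubgroup, ∀ v ∈ V, φ (M.ρ u v) = φ v) {f : Cosets K → M}
    (hf : f ∈ indSub K M V) (σ : Gam) :
    φ (M.ρ (QuotientGroup.mk σ : Cosets K).out⁻¹ (f (QuotientGroup.mk σ))) =
      φ (M.ρ σ⁻¹ (f (QuotientGroup.mk σ))) := by
  obtain ⟨h, hh⟩ := QuotientGroup.mk_out_eq_mul K.fixingSubgroup σ
  rw [hh, mul_inv_rev, map_mul]
  exact hφ _ (inv_mem h.2) _ (hf σ)

/-- A nonzero subspace stable under a `p`-group has a fixed functional. -/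
theorem exists_fixed_functional [FiniteDimensional (ZMod p) M]
    (hpow : ∀ u ∈ K.fixingSubgroup, ∃ k : ℕ, M.ρ (u ^ p ^ k) = 1)
    {V : Submodule (ZMod p) M} (hV : IsStableBy K M V) (hne : V ≠ ⊥) :
    ∃ φ : M →ₗ[ZMod p] ZMod p, (∀ u ∈ K.fixingSubgroup, ∀ v ∈ V, φ (M.ρ u v) = φ v) ∧
      ∃ v ∈ V, φ v = 1 := by
  classical
  let r : Representation (ZMod p) K.fixingSubgroup V :=
    { toFun := fun u => (M.ρ (u : Gam)).restrict fun v hv => hV u u.2 v hv
      map_one' := LinearMap.ext fun v => Subtype.ext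
        (show M.ρ ((1 : K.fixingSubgroup) : Gam) v.1 = v.1 by
          rw [OneMemClass.coe_one, map_one]; rfl)
      map_mul' := fun u w => LinearMap.ext fun v => Subtype.ext
        (show M.ρ ((u * w : K.fixingSubgroup) : Gam) v.1 = _ by
          rw [Subgroup.coe_mul, map_mul]; rfl) }
  let φ₀ := r.dual.asGroupHom
  have hP : IsPGroup p φ₀.range := by
    rintro ⟨_, u, rfl⟩
    obtain ⟨k, hk⟩ := hpow u u.2
    refine ⟨k, Subtype.ext ?_⟩
    show φ₀ u ^ p ^ k = 1
    rw [← map_pow]
    refine Units.ext ?_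
    rw [Representation.asGroupHom_apply, Units.val_one]
    refine LinearMap.ext fun ℓ => LinearMap.ext fun v => ?_
    show ℓ (r (u ^ p ^ k)⁻¹ v) = ℓ v
    refine congrArg ℓ (Subtype.ext ?_)
    show M.ρ (((u ^ p ^ k)⁻¹ : K.fixingSubgroup) : Gam) v.1 = v.1
    rw [Subgroup.coe_inv, SubgroupClass.coe_pow]
    exact (congrArg (M.ρ _) (show v.1 = M.ρ ((u : Gam) ^ p ^ k) v.1 by rw [hk]; rfl)).trans
      (Representation.inv_self_apply _ _ _)
  have : Nontrivial V := Submodule.nontrivial_iff_ne_bot.2 hne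
  have : Finite (Dual (ZMod p) V) := Module.finite_of_finite (ZMod p)
  have hcard : p ∣ Nat.card (Dual (ZMod p) V) := by
    rw [Module.natCard_eq_pow_finrank (K := ZMod p), Nat.card_zmod]
    exact dvd_pow_self p (by rw [Subspace.dual_finrank_eq]; exact finrank_pos.ne')
  obtain ⟨ℓ, hℓ, hℓ0⟩ := hP.exists_fixed_point_of_prime_dvd_card_of_fixed_point
    (Dual (ZMod p) V) hcard (a := 0) fun g => map_zero ((g.1 : (Module.End (ZMod p) _)ˣ).1)
  obtain ⟨s, hs⟩ := LinearMap.exists_extend ℓ
  obtain ⟨v, hv⟩ : ∃ v, ℓ v ≠ 0 := by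
    by_contra h
    push Not at h
    exact hℓ0 (LinearMap.ext fun v => (h v)).symm
  refine ⟨s, fun u hu w hw => ?_, (ℓ v)⁻¹ • v.1, V.smul_mem _ v.2, ?_⟩
  · have h1 : r.dual (⟨u, hu⟩ : K.fixingSubgroup)⁻¹ ℓ = ℓ := by
      have := hℓ ⟨φ₀ (⟨u, hu⟩ : K.fixingSubgroup)⁻¹, ⟨_, rfl⟩⟩
      exact this
    have h2 := LinearMap.congr_fun h1 ⟨w, hw⟩
    change ℓ (r (⟨u, hu⟩ : K.fixingSubgroup)⁻¹⁻¹ ⟨w, hw⟩) = ℓ ⟨w, hw⟩ at h2
    rw [inv_inv] at h2
    rw [← hs] at h2
    exact h2
  · rw [map_smul, show s v.1 = ℓ v from LinearMap.congr_fun hs v, smul_eq_mul, inv_mul_cancel₀ hv]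

/-- The sum of the defects of functions on the cosets is nonnegative. -/
theorem defectSum_indRep_nonneg (hp2 : p ≠ 2) {L : Layer} {S : Finset Nat.Primes}
    (hA : IsAdapted (p := p) L S) (hLK : L.sub ≤ K.fixingSubgroup) (hK : HasRoots p K)
    [FiniteDimensional ℚ K] [FiniteDimensional (ZMod p) M]
    (htriv : ∀ g ∈ L.sub, M.ρ g = 1)
    (hrank : ∀ (N : Rep.{0} (ZMod p) Gam) [FiniteDimensional (ZMod p) N],
      (∀ g ∈ L.sub, N.ρ g = 1) → RankTwo S N)
    (hpow : ∀ u ∈ K.fixingSubgroup, ∃ k : ℕ, M.ρ (u ^ p ^ k) = 1) :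
    ∀ (n : ℕ) (V : Submodule (ZMod p) M), finrank (ZMod p) V = n → IsStableBy K M V →
      0 ≤ defectSum S (indRep K M V) := by
  classical
  have := finite_cosets (K := K)
  intro n
  induction n using Nat.strong_induction_on with
  | _ n ih =>
    intro V hn hV
    have hW : SLevel S (indRep K M V) := sLevel_of_trivial hA.isS (indRep_trivial hLK htriv V)
    rcases eq_or_ne V ⊥ with rfl | hne
    · have := finite_continuousH1S S hA.pmem _ hW
      have := finiteDimensional_dualTwist (indRep K M (⊥ : Submodule (ZMod p) M))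
      have := finiteDimensional_dualTwist
        ((indRep K M (⊥ : Submodule (ZMod p) M)).dualTwist (cycloChar p))
      have := finite_continuousH1S S hA.pmem _ (sLevel_dualTwist hA.pmem hW)
      have := finite_continuousH1S S hA.pmem _
        (sLevel_dualTwist hA.pmem (sLevel_dualTwist hA.pmem hW))
      have : Subsingleton (indRep K M (⊥ : Submodule (ZMod p) M)) := ⟨fun a b =>
        Subtype.ext (funext fun x => by
          obtain ⟨σ, rfl⟩ := QuotientGroup.mk_surjective x
          have ha := (Submodule.mem_bot _).1 ((a : indSub K M ⊥).2 σ)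
          have hb := (Submodule.mem_bot _).1 ((b : indSub K M ⊥).2 σ)
          exact (Representation.apply_bijective M.ρ σ⁻¹).1 (ha.trans hb.symm))⟩
      have : Subsingleton ((indRep K M (⊥ : Submodule (ZMod p) M)).dualTwist (cycloChar p)) :=
        ⟨fun a b => LinearMap.ext fun x => by
          rw [Subsingleton.elim x 0, map_zero, map_zero]⟩
      unfold defectSum
      rw [eulerDefect_add_eq hp2 hA.pmem _ hW]
      have h0 : ∑ q : S, finrank (ZMod p) (continuousH1 (primeLocalToGlobal q.1)
          (Rep.res (primeLocalToGlobal q.1) (indRep K M (⊥ : Submodule (ZMod p) M)))) = 0 :=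
        Finset.sum_eq_zero fun q _ => by
          rw [(localEuler q.1 _ hW).2, finrank_zero_of_subsingleton]
          have : Subsingleton (Rep.res (primeLocalToGlobal q.1)
              (indRep K M (⊥ : Submodule (ZMod p) M))) :=
            inferInstanceAs (Subsingleton (indRep K M (⊥ : Submodule (ZMod p) M)))
          have : Subsingleton (Rep.res (primeLocalToGlobal q.1)
              ((indRep K M (⊥ : Submodule (ZMod p) M)).dualTwist (cycloChar p))) :=
            inferInstanceAs (Subsingleton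
              ((indRep K M (⊥ : Submodule (ZMod p) M)).dualTwist (cycloChar p)))
          rw [finrank_zero_of_subsingleton, finrank_zero_of_subsingleton]
          simp
      rw [h0]
      omega
    obtain ⟨φ, hφ, v₁, hv₁, hφv⟩ := exists_fixed_functional hpow hV hne
    set V₂ : Submodule (ZMod p) M := V ⊓ LinearMap.ker φ
    have hV₂ : IsStableBy K M V₂ := fun u hu v hv =>
      ⟨hV u hu v hv.1, LinearMap.mem_ker.2 ((hφ u hu v hv.1).trans (LinearMap.mem_ker.1 hv.2))⟩
    have hlt : finrank (ZMod p) V₂ < n := hn ▸ Submodule.finrank_lt_finrank_of_lt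
      (lt_of_le_of_ne inf_le_left fun h => by
        have : v₁ ∈ V₂ := h.symm ▸ hv₁
        rw [LinearMap.mem_ker.1 this.2] at hφv
        exact zero_ne_one hφv)
    let ι : indRep K M V₂ →ₗ[ZMod p] indRep K M V :=
      (Submodule.inclusion (fun f hf σ => (hf σ).1 : indSub K M V₂ ≤ indSub K M V) :
        indSub K M V₂ →ₗ[ZMod p] indSub K M V)
    let π : indRep K M V →ₗ[ZMod p] cosetRep p K :=
      ({ toFun := fun f x => φ (M.ρ x.out⁻¹ (f.1 x))
         map_add' := fun f f' => funext fun x => by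
           show φ (M.ρ _ (f.1 x + f'.1 x)) = _
           rw [map_add, map_add]; rfl
         map_smul' := fun c f => funext fun x => by
           show φ (M.ρ _ (c • f.1 x)) = _
           rw [map_smul, map_smul]; rfl } : indSub K M V →ₗ[ZMod p] (Cosets K → ZMod p))
    have hπ : ∀ (g : Gam) (f : indRep K M V), π ((indRep K M V).ρ g f) = (cosetRep p K).ρ g (π f) :=
      fun g f => funext fun x => by
        obtain ⟨σ, rfl⟩ := QuotientGroup.mk_surjective x
        show φ (M.ρ (QuotientGroup.mk σ : Cosets K).out⁻¹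
            (((indRep K M V).ρ g f : indSub K M V).1 (QuotientGroup.mk σ))) =
          φ (M.ρ (QuotientGroup.mk (g⁻¹ * σ) : Cosets K).out⁻¹
            ((f : indSub K M V).1 (QuotientGroup.mk (g⁻¹ * σ))))
        rw [functional_out hφ ((indRep K M V).ρ g f : indSub K M V).2,
          functional_out hφ (f : indSub K M V).2, indRep_apply, ← Module.End.mul_apply, ← map_mul,
          show σ⁻¹ * g = (g⁻¹ * σ)⁻¹ by group]
        rfl
    have hmem : ∀ c : Cosets K → ZMod p,
        (fun x : Cosets K => c x • M.ρ x.out v₁) ∈ indSub K M V := fun c σ => by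
      obtain ⟨h, hh⟩ := QuotientGroup.mk_out_eq_mul K.fixingSubgroup σ
      rw [map_smul, hh, ← Module.End.mul_apply, ← map_mul, inv_mul_cancel_left]
      exact V.smul_mem _ (hV h h.2 v₁ hv₁)
    have h3 := defectSum_superadd hp2 hA hrank ι π (fun _ _ => rfl) hπ
      (fun a b hab => Subtype.ext (congrArg (fun z : indSub K M V => z.1) hab))
      (fun c => ⟨(⟨_, hmem c⟩ : indSub K M V), funext fun x => by
        show φ (M.ρ x.out⁻¹ ((c : Cosets K → ZMod p) x • M.ρ x.out v₁)) = _
        rw [map_smul, map_smul, Representation.inv_self_apply, hφv, smul_eq_mul, mul_one]⟩)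
      (fun f => ⟨fun hf => ⟨(⟨(f : indSub K M V).1, fun σ => ⟨(f : indSub K M V).2 σ,
          LinearMap.mem_ker.2 ((functional_out hφ (f : indSub K M V).2 σ).symm.trans
            (congrFun hf (QuotientGroup.mk σ)))⟩⟩ : indSub K M V₂), rfl⟩, fun ⟨a, ha⟩ => by
        subst ha
        exact funext fun x => by
          obtain ⟨σ, rfl⟩ := QuotientGroup.mk_surjective x
          refine (functional_out hφ (ι a : indSub K M V).2 σ).trans ?_
          exact LinearMap.mem_ker.1 ((a : indSub K M V₂).2 σ).2⟩)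
      (indRep_trivial hLK htriv _) (indRep_trivial hLK htriv _) (cosetRep_trivial hLK)
    have h4 := ih _ hlt V₂ rfl hV₂
    have h5 := eulerDefect_cosetRep_nonneg (p := p) (K := K) hp2 hA.isS hLK hK hA.pmem
    unfold defectSum at h3 h4 ⊢
    linarith

end FLTAgent.GWEuler.Middle
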